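import Mathlib

/-!
# The regular system of parameters of a power series ring over a discrete valuation ring

## Main results

* `psParams`: the sequence `X₀, …, X_{r-1}, ϖ`.
* `isWeaklyRegular_psParams`: it is weakly regular.
* `ofList_psParams_eq_maximalIdeal`: it generates the maximal ideal.
-/

set_option autoImplicit false

open MvPowerSeries IsLocalRing RingTheory.Sequence

namespace Fermat.Agent.CommAlg

variable {σ S : Type} [CommRing S]

theorem mem_span_X_image_iff (s : Finset σ) (f : MvPowerSeries σ S) :
    f ∈ Ideal.span (X '' (s : Set σ)) ↔ ∀ n : σ →₀ ℕ, (∀ j ∈ s, n j = 0) → coeff n f = 0 := by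
  classical
  constructor
  · intro hf n hn
    induction hf using Submodule.span_induction generalizing n with
    | mem x hx =>
      obtain ⟨j, hj, rfl⟩ := hx
      exact X_dvd_iff.mp dvd_rfl n (hn j hj)
    | zero => simp
    | add a b _ _ iha ihb => simp [iha n hn, ihb n hn]
    | smul a x _ ih =>
      rw [smul_eq_mul, coeff_mul]
      refine Finset.sum_eq_zero fun p hp => ?_
      have hp' := Finset.HasAntidiagonal.mem_antidiagonal.mp hp
      rw [ih p.2 fun j hj => ?_, mul_zero]
      have := DFunLike.congr_fun hp' j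
      simp only [Finsupp.coe_add, Pi.add_apply, hn j hj] at this
      omega
  · induction s using Finset.induction_on generalizing f with
    | empty =>
      intro h
      have : f = 0 := ext fun n => by simpa using h n (by simp)
      simp [this]
    | @insert a t _ ih =>
      intro h
      let g : MvPowerSeries σ S := fun n => if n a = 0 then coeff n f else 0
      have hg : ∀ n, coeff n g = if n a = 0 then coeff n f else 0 := fun n => rfl
      obtain ⟨q, hq⟩ : X a ∣ f - g := by
        rw [X_dvd_iff]
        intro m hm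
        simp [hg, hm]
      have hg' : g ∈ Ideal.span (X '' (t : Set σ)) := ih g fun n hn => by
        rw [hg]
        split_ifs with ha
        · exact h n fun j hj => by
            rcases Finset.mem_insert.mp hj with rfl | hj
            · exact ha
            · exact hn j hj
        · rfl
      rw [Finset.coe_insert, Set.image_insert_eq, ← sub_add_cancel f g, hq]
      exact add_mem (Ideal.mul_mem_right _ _ (Ideal.subset_span (Set.mem_insert _ _)))
        (Ideal.span_mono (Set.subset_insert _ _) hg')

theorem sub_C_constantCoeff_mem_span_X [Fintype σ] (f : MvPowerSeries σ S) :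
    f - C (constantCoeff f) ∈ Ideal.span (Set.range (X : σ → MvPowerSeries σ S)) := by
  rw [← Set.image_univ, ← Finset.coe_univ, mem_span_X_image_iff]
  intro n hn
  obtain rfl : n = 0 := Finsupp.ext fun j => hn j (Finset.mem_univ j)
  simp

/-- The sequence `X₀, …, X_{r-1}, ϖ` in `S⟦X₀, …, X_{r-1}⟧`. -/
noncomputable def psParams (r : ℕ) (ϖ : S) : List (MvPowerSeries (Fin r) S) :=
  List.ofFn (X : Fin r → MvPowerSeries (Fin r) S) ++ [C ϖ]

theorem length_psParams (r : ℕ) (ϖ : S) : (psParams r ϖ).length = r + 1 := by simp [psParams]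

theorem ofList_take_psParams {r : ℕ} {ϖ : S} {i : ℕ} (hi : i ≤ r) :
    Ideal.ofList ((psParams r ϖ).take i) =
      Ideal.span (X '' ((Finset.univ.filter fun j : Fin r => (j : ℕ) < i) : Set (Fin r))) := by
  rw [psParams, List.take_append_of_le_length (by simpa using hi)]
  refine congrArg Ideal.span (Set.ext fun x => ?_)
  simp only [Set.mem_ofPred_eq, Set.mem_image, Finset.coe_filter, Finset.mem_univ, true_and,
    List.mem_take_iff_getElem, List.getElem_ofFn, List.length_ofFn]
  constructor
  · rintro ⟨j, hj, rfl⟩
    exact ⟨⟨j, by omega⟩, by simp; omega, rfl⟩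
  · rintro ⟨j, hj, rfl⟩
    exact ⟨j, by omega, rfl⟩

/-- `X₀, …, X_{r-1}, ϖ` is a weakly regular sequence. -/
theorem isWeaklyRegular_psParams [IsDomain S] (r : ℕ) {ϖ : S} (hϖ : ϖ ≠ 0) :
    IsWeaklyRegular (MvPowerSeries (Fin r) S) (psParams r ϖ) := by
  classical
  refine ⟨fun i hi => ?_⟩
  have hi' : i ≤ r := by rw [length_psParams] at hi; omega
  rw [isSMulRegular_quotient_iff_mem_of_smul_mem]
  simp only [smul_eq_mul, Ideal.mul_top, ofList_take_psParams hi', mem_span_X_image_iff,
    Finset.mem_filter, Finset.mem_univ, true_and]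
  intro f hf n hn
  rcases lt_or_eq_of_le hi' with hlt | rfl
  · have hget : (psParams r ϖ)[i] = X (⟨i, hlt⟩ : Fin r) := by
      simp [psParams, hlt]
    have hz : ∀ j : Fin r, (j : ℕ) < i →
        ((Finsupp.single (⟨i, hlt⟩ : Fin r) (1 : ℕ) + n : Fin r →₀ ℕ)) j = 0 := by
      intro j hj
      have hne : (⟨i, hlt⟩ : Fin r) ≠ j := fun h => by simp [← h] at hj
      simp [Finsupp.single_eq_of_ne' hne, hn j hj]
    have := hf _ hz
    rw [hget, X_def, coeff_add_monomial_mul, one_mul] at this
    exact this
  · have hget : (psParams i ϖ)[i] = C ϖ := by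
      simp [psParams]
    have := hf n hn
    rw [hget, coeff_C_mul] at this
    exact (mul_eq_zero.mp this).resolve_left hϖ

theorem ofList_psParams (r : ℕ) (ϖ : S) :
    Ideal.ofList (psParams r ϖ) =
      Ideal.span (Set.range (X : Fin r → MvPowerSeries (Fin r) S)) ⊔ Ideal.span {C ϖ} := by
  rw [psParams, Ideal.ofList_append, Ideal.ofList_singleton]
  refine congrArg (· ⊔ _) (congrArg Ideal.span (Set.ext fun x => ?_))
  simp [List.mem_ofFn]

/-- `X₀, …, X_{r-1}, ϖ` generates the maximal ideal. -/
theorem ofList_psParams_eq_maximalIdeal [IsLocalRing S] (r : ℕ) {ϖ : S}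
    (hϖ : maximalIdeal S = Ideal.span {ϖ}) :
    Ideal.ofList (psParams r ϖ) = maximalIdeal (MvPowerSeries (Fin r) S) := by
  rw [ofList_psParams]
  apply le_antisymm
  · refine sup_le (Ideal.span_le.mpr ?_) (Ideal.span_le.mpr ?_)
    · rintro _ ⟨j, rfl⟩
      simp [mem_maximalIdeal, isUnit_iff_constantCoeff]
    · rintro _ rfl
      have : ϖ ∈ maximalIdeal S := hϖ ▸ Ideal.subset_span rfl
      simpa [mem_maximalIdeal, isUnit_iff_constantCoeff] using this
  · intro f hf
    have hc : constantCoeff f ∈ maximalIdeal S := by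
      simpa [mem_maximalIdeal, isUnit_iff_constantCoeff] using hf
    obtain ⟨c, hc⟩ := Ideal.mem_span_singleton'.mp (hϖ ▸ hc)
    rw [← sub_add_cancel f (C (constantCoeff f)), ← hc, map_mul]
    exact add_mem
      (Ideal.mem_sup_left (by rw [← map_mul, hc]; exact sub_C_constantCoeff_mem_span_X f))
      (Ideal.mem_sup_right (Ideal.mul_mem_left _ _ (Ideal.subset_span rfl)))

end Fermat.Agent.CommAlg
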