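import Mathlib

/-!
# Modules with a maximal regular sequence over a ring with a regular system of parameters

## Main results

* `free_of_isWeaklyRegular`: the freeness criterion of Auslander and Buchsbaum: over a local ring
  whose maximal ideal is generated by a regular sequence, a finite module of maximal depth is
  free.
-/

set_option autoImplicit false

open IsLocalRing RingTheory.Sequence CategoryTheory

namespace Fermat.Agent.CommAlg

variable {R : Type} [CommRing R] [IsLocalRing R] [IsNoetherianRing R]

/-- If the maximal ideal of `R` is generated by a weakly regular sequence `t`, every module of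
finite length has projective dimension at most the length of `t`. -/
theorem hasProjectiveDimensionLE_of_isFiniteLength {t : List R} (ht : IsWeaklyRegular R t)
    (htm : Ideal.ofList t = maximalIdeal R) {P : Type} [AddCommGroup P] [Module R P]
    (h : IsFiniteLength R P) : HasProjectiveDimensionLE (ModuleCat.of R P) t.length := by
  induction h with
  | @of_subsingleton P _ _ _ =>
    have : Limits.IsZero (ModuleCat.of R P) := ModuleCat.isZero_iff_subsingleton.mpr ‹_›
    have := this.hasProjectiveDimensionLT_zero
    exact hasProjectiveDimensionLT_of_ge _ 0 _ (Nat.zero_le _)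
  | @of_simple_quotient P _ _ Q _ _ ih =>
    obtain ⟨I, hI, ⟨e⟩⟩ := isSimpleModule_iff_quot_maximal.mp ‹IsSimpleModule R (P ⧸ Q)›
    obtain rfl : I = maximalIdeal R := IsLocalRing.eq_maximalIdeal hI
    have hmem : ∀ x ∈ t, x ∈ maximalIdeal R := fun x hx => htm ▸ Ideal.subset_span hx
    have hk := ModuleCat.projectiveDimension_quotient_eq_add_length_of_isWeaklyRegular
      (ModuleCat.of R R) t ht hmem
    have : Projective (ModuleCat.of R R) :=
      (IsProjective.iff_projective R).mp inferInstance
    rw [ModuleCat.projectiveDimension_eq_zero_of_projective (ModuleCat.of R R), zero_add] at hk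
    have hk' : HasProjectiveDimensionLE
        (ModuleCat.of R (R ⧸ Ideal.ofList t • (⊤ : Submodule R R))) t.length :=
      (projectiveDimension_le_iff _ _).mp hk.le
    have hJ : Ideal.ofList t • (⊤ : Submodule R R) = maximalIdeal R := by
      rw [smul_eq_mul, Ideal.mul_top, htm]
    let e' : (R ⧸ Ideal.ofList t • (⊤ : Submodule R R)) ≃ₗ[R] P ⧸ Q :=
      (Submodule.quotEquivOfEq _ _ hJ).trans e.symm
    have h3 : HasProjectiveDimensionLE (ModuleCat.of R (P ⧸ Q)) t.length :=
      hasProjectiveDimensionLT_of_iso e'.toModuleIso _
    exact (LinearMap.shortExact_shortComplexKer (Submodule.mkQ_surjective Q)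
      ).hasProjectiveDimensionLT_X₂ (t.length + 1)
      (@hasProjectiveDimensionLT_of_iso _ _ _ _ _
        (LinearEquiv.ofEq _ _ (Submodule.ker_mkQ Q).symm).toModuleIso _ ih) h3

/-- A finite module over a local ring with a regular system of parameters `t`, having a weakly
regular sequence at least as long as `t` with quotient of finite length, is free. -/
theorem free_of_isWeaklyRegular {t : List R} (ht : IsWeaklyRegular R t)
    (htm : Ideal.ofList t = maximalIdeal R) (N : Type) [AddCommGroup N] [Module R N]
    [Module.Finite R N] {rs : List R} (hrs : IsWeaklyRegular N rs)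
    (mem : ∀ x ∈ rs, x ∈ maximalIdeal R) (len : t.length ≤ rs.length)
    (fl : IsFiniteLength R (N ⧸ Ideal.ofList rs • (⊤ : Submodule R N))) :
    Module.Free R N := by
  cases subsingleton_or_nontrivial N with
  | inl _ => infer_instance
  | inr _ =>
    have h1 := ModuleCat.projectiveDimension_quotient_eq_add_length_of_isWeaklyRegular
      (ModuleCat.of R N) rs hrs mem
    have h2 : projectiveDimension
        (ModuleCat.of R (N ⧸ Ideal.ofList rs • (⊤ : Submodule R N))) ≤ (t.length : WithBot ℕ∞) :=
      (projectiveDimension_le_iff _ _).mpr (hasProjectiveDimensionLE_of_isFiniteLength ht htm fl)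
    have h3 : projectiveDimension (ModuleCat.of R N) + (rs.length : WithBot ℕ∞) ≤
        (0 : WithBot ℕ∞) + (rs.length : WithBot ℕ∞) := by
      rw [← h1, zero_add]
      exact h2.trans (by exact_mod_cast len)
    rw [ENat.WithBot.add_le_add_natCast_right_iff] at h3
    have h4 : HasProjectiveDimensionLE (ModuleCat.of R N) 0 :=
      (projectiveDimension_le_iff _ _).mp (by simpa using h3)
    have h5 : Projective (ModuleCat.of R N) :=
      (projective_iff_hasProjectiveDimensionLE_zero _).mpr h4
    have : Module.Projective R N := (IsProjective.iff_projective N).mpr h5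
    exact Module.free_of_flat_of_isLocalRing

end Fermat.Agent.CommAlg
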